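import Fermat.Agent.S37.QA.Defs
import Fermat.Agent.S37.Defs
import Fermat.Agent.S28.Defs

/-!
# S37-QA-8: bridge between the `Integ` predicate and integrality inside the function fields
-/

set_option autoImplicit false

noncomputable section

namespace Fermat.Agent.S37.QA

open ModularCurve Polynomial

section Bridge

open Fermat.Agent.S24 Fermat.Agent.S37 ModularCurve.IgusaScheme

/-- integrality only depends on the image of the base ring. -/
theorem bridge_isIntegralElem_of_range_subset {R' P S : Type*} [CommRing R'] [CommRing P]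
    [CommRing S] (ψ : R' →+* S) (φ : P →+* S) (h : Set.range ψ ⊆ Set.range φ) {z : S}
    (hz : ψ.IsIntegralElem z) : φ.IsIntegralElem z := by
  obtain ⟨p, hp, h0⟩ := hz
  have hl : p.map ψ ∈ Polynomial.lifts φ := by
    rw [Polynomial.lifts_iff_coeff_lifts]
    intro n
    rw [Polynomial.coeff_map]
    exact h ⟨_, rfl⟩
  obtain ⟨q, hq, -, hqm⟩ := Polynomial.lifts_and_natDegree_eq_and_monic hl (hp.map ψ)
  refine ⟨q, hqm, ?_⟩
  rw [Polynomial.eval₂_eq_eval_map, hq, ← Polynomial.eval₂_eq_eval_map, h0]

/-- integrality can be tested after an injection. -/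
theorem bridge_isIntegralElem_comp_iff {P S T : Type*} [CommRing P] [CommRing S] [CommRing T]
    (φ : P →+* S) (ι : S →+* T) (hι : Function.Injective ι) (z : S) :
    (ι.comp φ).IsIntegralElem (ι z) ↔ φ.IsIntegralElem z := by
  constructor
  · rintro ⟨p, hp, h0⟩
    refine ⟨p, hp, hι ?_⟩
    rw [Polynomial.hom_eval₂, h0, map_zero]
  · rintro ⟨p, hp, h0⟩
    refine ⟨p, hp, ?_⟩
    rw [← Polynomial.hom_eval₂, h0, map_zero]

/-- integrality over a ring with the same image as `φ`, tested after an injection `ι`. -/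
theorem isIntegralElem_iff_of_range_eq {R' P S T : Type*} [CommRing R'] [CommRing P] [CommRing S]
    [CommRing T] (ψ : R' →+* S) (φ : P →+* S) (hφ : Set.range ψ = Set.range φ)
    (ι : S →+* T) (hι : Function.Injective ι) (z : S) :
    ψ.IsIntegralElem z ↔ (ι.comp φ).IsIntegralElem (ι z) := by
  rw [bridge_isIntegralElem_comp_iff φ ι hι z]
  exact ⟨bridge_isIntegralElem_of_range_subset ψ φ hφ.le,
    bridge_isIntegralElem_of_range_subset φ ψ hφ.ge⟩

/-- the evaluation map with values in an intermediate field of `K((q))`. -/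
def bridgeEv {R K : Type*} [CommRing R] [Field K] (i : R →+* K)
    (F : IntermediateField K (LaurentSeries K)) (x : F) : R[X] →+* F :=
  Polynomial.eval₂RingHom ((algebraMap K F).comp i) x

theorem bridge_comp_bridgeEv {R K : Type*} [CommRing R] [Field K] (i : R →+* K)
    (F : IntermediateField K (LaurentSeries K)) (x : F) :
    (algebraMap F (LaurentSeries K)).comp (bridgeEv i F x) = ev i (x : LaurentSeries K) := by
  refine Polynomial.ringHom_ext (fun r => ?_) ?_
  · simp only [bridgeEv, RingHom.comp_apply, Polynomial.coe_eval₂RingHom, Polynomial.eval₂_C, ev_C]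
    rfl
  · simp only [bridgeEv, RingHom.comp_apply, Polynomial.coe_eval₂RingHom, Polynomial.eval₂_X, ev_X]
    rfl

/-- the general bridge. -/
theorem bridge_integ_iff {R K R' : Type*} [CommRing R] [Field K] [CommRing R'] (i : R →+* K)
    (F : IntermediateField K (LaurentSeries K)) (ψ : R' →+* F) (x z : F)
    (h : Set.range ψ = Set.range (bridgeEv i F x)) :
    ψ.IsIntegralElem z ↔ Integ i (x : LaurentSeries K) (z : LaurentSeries K) := by
  rw [isIntegralElem_iff_of_range_eq ψ _ h (algebraMap F (LaurentSeries K))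
    (algebraMap F (LaurentSeries K)).injective z, bridge_comp_bridgeEv]
  rfl

theorem isIntegralElem_closure_iff (A : ValuationSubring Kbar) (N : ℕ) (x b : FN N) :
    (Subring.closure (constSet A N ∪ {x})).subtype.IsIntegralElem b ↔
      Integ A.subtype (x : LaurentSeries Kb) (b : LaurentSeries Kb) := by
  apply bridge_integ_iff A.subtype (modularFunctionFieldBar N)
  rw [Subring.coe_subtype, Subtype.range_coe]
  apply Set.Subset.antisymm
  · have h : Subring.closure (constSet A N ∪ {x}) ≤
        (bridgeEv A.subtype (modularFunctionFieldBar N) x).range := by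
      rw [Subring.closure_le]
      rintro f (⟨a, ha, rfl⟩ | rfl)
      · exact ⟨C ⟨a, ha⟩, by simp [bridgeEv]⟩
      · exact ⟨Polynomial.X, by simp [bridgeEv]⟩
    exact h
  · have h : ∀ P : (↥A)[X], bridgeEv A.subtype (modularFunctionFieldBar N) x P ∈
        Subring.closure (constSet A N ∪ {x}) := by
      intro P
      induction P using Polynomial.induction_on' with
      | add p q hp hq =>
        rw [map_add]
        exact add_mem hp hq
      | monomial n a =>
        rw [← Polynomial.C_mul_X_pow_eq_monomial, map_mul, map_pow]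
        have hC : bridgeEv A.subtype (modularFunctionFieldBar N) x (C a) ∈
            Subring.closure (constSet A N ∪ {x}) :=
          Subring.subset_closure (Or.inl ⟨a, a.2, by simp [bridgeEv]⟩)
        have hX : bridgeEv A.subtype (modularFunctionFieldBar N) x Polynomial.X ∈
            Subring.closure (constSet A N ∪ {x}) :=
          Subring.subset_closure (Or.inr (by simp [bridgeEv]))
        exact mul_mem hC (pow_mem hX n)
    rintro _ ⟨P, rfl⟩
    exact h P

theorem isIntegral_adjoin_iff (N : ℕ) (x z : FN N) :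
    IsIntegral (Algebra.adjoin Kbar {x}) z ↔
      Integ (RingHom.id Kb) (x : LaurentSeries Kb) (z : LaurentSeries Kb) := by
  apply bridge_integ_iff (RingHom.id Kb) (modularFunctionFieldBar N)
  have h1 : Set.range (algebraMap (Algebra.adjoin Kbar {x}) (FN N)) =
      (Algebra.adjoin Kbar {x} : Set (FN N)) := Subtype.range_coe
  rw [h1, Algebra.adjoin_singleton_eq_range_aeval]
  rfl

theorem mem_chartAlg_iff' (N : ℕ) [NeZero N] (ℓ : ℕ) [Fact ℓ.Prime]
    (x f : ↥(modularFunctionFieldFull N)) :
    f ∈ chartAlg N ℓ {x} ↔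
      Integ (GaloisRep.ratLocalizedAt ℓ).subtype (x : LaurentSeries ℚ) (f : LaurentSeries ℚ) := by
  rw [mem_chartAlg_iff]
  apply bridge_integ_iff (GaloisRep.ratLocalizedAt ℓ).subtype (modularFunctionFieldFull N)
  have h1 : Set.range (algebraMap (Algebra.adjoin (S28.Zl ℓ) {x}) ↥(modularFunctionFieldFull N)) =
      (Algebra.adjoin (S28.Zl ℓ) {x} : Set ↥(modularFunctionFieldFull N)) := Subtype.range_coe
  rw [h1, Algebra.adjoin_singleton_eq_range_aeval]
  have h2 : ∀ P : (S28.Zl ℓ)[X], aeval x P =
      bridgeEv (GaloisRep.ratLocalizedAt ℓ).subtype (modularFunctionFieldFull N) x P := by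
    intro P
    have h3 : algebraMap (S28.Zl ℓ) ↥(modularFunctionFieldFull N) =
        (algebraMap ℚ ↥(modularFunctionFieldFull N)).comp (GaloisRep.ratLocalizedAt ℓ).subtype :=
      rfl
    rw [Polynomial.aeval_def, bridgeEv, Polynomial.coe_eval₂RingHom, h3]
    congr 2
    exact Subsingleton.elim _ _
  ext g
  constructor
  · rintro ⟨P, rfl⟩
    exact ⟨P, (h2 P).symm⟩
  · rintro ⟨P, rfl⟩
    exact ⟨P, h2 P⟩

theorem qep'_of_QEP (N : ℕ) [NeZero N] (ℓ : ℕ) [Fact ℓ.Prime] (x : ↥(modularFunctionFieldFull N))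
    (h : S28.QEP N ℓ (chartAlg N ℓ {x})) :
    QEP' ℓ (modularFunctionFieldFull N) (x : LaurentSeries ℚ) := by
  constructor
  · rintro f ⟨hf, hint⟩
    exact h.1 ⟨f, hf⟩ ((mem_chartAlg_iff' N ℓ x ⟨f, hf⟩).mpr hint)
  · rintro f ⟨hf, hint⟩ hdiv
    obtain ⟨y, hy, hfy⟩ := h.2 ⟨f, hf⟩ ((mem_chartAlg_iff' N ℓ x ⟨f, hf⟩).mpr hint) hdiv
    refine ⟨y, ⟨y.2, (mem_chartAlg_iff' N ℓ x y).mp hy⟩, ?_⟩
    have := congrArg Subtype.val hfy
    simpa using this

end Bridge

end Fermat.Agent.S37.QA

end
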