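import Mathlib
import Fermat.Prelude.Def_ModularCurve_LaurentCoeff
import Fermat.Agent.S28.Defs

/-!
# S37-QA: definitions for the `q`-expansion principle over a valuation ring of `ℚ̄`
(owner helper133)

Everything is phrased inside the big fields `ℚ((q))`, `ℚ̄((q))`:
* `ev i t : R[X] →+* K((q))` : evaluation `X ↦ t`, constants through `i : R →+* K`;
* `Integ i t z`             : `z` is integral over `i(R)[t]`;
* `B0 ℓ F₀ t`               : the elements of `F₀` integral over `ℤ_(ℓ)[t]`;
* `SA A F₀ t`               : the elements of `ℚ̄ F₀` integral over `A[t]` with `A`-integral expansion;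
* `QEP' ℓ F₀ t`             : the `q`-expansion principle for `B0`.
-/

set_option autoImplicit false

noncomputable section

namespace Fermat.Agent.S37.QA

open ModularCurve Polynomial

/-- `ℚ̄` -/
abbrev Kb : Type := AlgebraicClosure ℚ

section Ev

variable {R K : Type*} [CommRing R] [Field K]

/-- evaluation `R[X] → K((q))`, `X ↦ t`, constants through `i : R → K`. -/
def ev (i : R →+* K) (t : LaurentSeries K) : R[X] →+* LaurentSeries K :=
  Polynomial.eval₂RingHom ((algebraMap K (LaurentSeries K)).comp i) t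

@[simp] theorem ev_C (i : R →+* K) (t : LaurentSeries K) (r : R) :
    ev i t (C r) = algebraMap K (LaurentSeries K) (i r) := by
  simp [ev]

@[simp] theorem ev_X (i : R →+* K) (t : LaurentSeries K) : ev i t X = t := by
  simp [ev]

/-- `z` is integral over `i(R)[t]`. -/
def Integ (i : R →+* K) (t z : LaurentSeries K) : Prop := (ev i t).IsIntegralElem z

theorem Integ.add {i : R →+* K} {t z w : LaurentSeries K} (hz : Integ i t z) (hw : Integ i t w) :
    Integ i t (z + w) := RingHom.IsIntegralElem.add _ hz hw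

theorem Integ.mul {i : R →+* K} {t z w : LaurentSeries K} (hz : Integ i t z) (hw : Integ i t w) :
    Integ i t (z * w) := RingHom.IsIntegralElem.mul _ hz hw

theorem Integ.neg {i : R →+* K} {t z : LaurentSeries K} (hz : Integ i t z) :
    Integ i t (-z) := RingHom.IsIntegralElem.neg _ hz

theorem integ_zero (i : R →+* K) (t : LaurentSeries K) : Integ i t 0 :=
  RingHom.isIntegralElem_zero _

theorem integ_ev (i : R →+* K) (t : LaurentSeries K) (P : R[X]) : Integ i t (ev i t P) :=
  RingHom.isIntegralElem_map _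

theorem integ_const (i : R →+* K) (t : LaurentSeries K) (r : R) :
    Integ i t (algebraMap K (LaurentSeries K) (i r)) := by
  rw [← ev_C i t r]
  exact integ_ev i t _

theorem integ_self (i : R →+* K) (t : LaurentSeries K) : Integ i t t := by
  have := integ_ev i t X
  rwa [ev_X] at this

end Ev

/-- the scalar action on Laurent series (the default instance, coefficientwise) in terms of
`algebraMap`. -/
theorem smul_eq_algebraMap_mul {K : Type*} [Field K] (c : K) (z : LaurentSeries K) :
    c • z = algebraMap K (LaurentSeries K) c * z := by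
  rw [algebraMap_laurentSeries_eq_single, HahnSeries.single_zero_mul_eq_smul]

theorem coeff_algebraMap_mul {K : Type*} [Field K] (c : K) (z : LaurentSeries K) (k : ℤ) :
    (algebraMap K (LaurentSeries K) c * z).coeff k = c * z.coeff k := by
  rw [← smul_eq_algebraMap_mul, HahnSeries.coeff_smul, smul_eq_mul]

section Map

variable {R R' K K' : Type*} [CommRing R] [CommRing R'] [Field K] [Field K']

theorem coeffMap_algebraMap'' (β : K →+* K') (c : K) :
    coeffMap β (algebraMap K (LaurentSeries K) c) = algebraMap K' (LaurentSeries K') (β c) := by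
  rw [algebraMap_laurentSeries_eq_single, algebraMap_laurentSeries_eq_single, coeffMap_single]

theorem ev_comp_map (i : R →+* K) (i' : R' →+* K') (α : R →+* R') (β : K →+* K')
    (h : β.comp i = i'.comp α) (t : LaurentSeries K) :
    (ev i' (coeffMap β t)).comp (Polynomial.mapRingHom α) = (coeffMap β).comp (ev i t) := by
  refine Polynomial.ringHom_ext (fun r => ?_) ?_
  · have h' : β (i r) = i' (α r) := RingHom.congr_fun h r
    simp [coeffMap_algebraMap'', h']
  · simp

/-- functoriality of integrality. -/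
theorem Integ.map {i : R →+* K} (i' : R' →+* K') (α : R →+* R') (β : K →+* K')
    (h : β.comp i = i'.comp α) {t z : LaurentSeries K} (hz : Integ i t z) :
    Integ i' (coeffMap β t) (coeffMap β z) := by
  obtain ⟨p, hp, h0⟩ := hz
  refine ⟨p.map (Polynomial.mapRingHom α), hp.map _, ?_⟩
  rw [Polynomial.eval₂_map, ev_comp_map i i' α β h, ← Polynomial.hom_eval₂, h0, map_zero]

/-- enlarging the ring of constants. -/
theorem Integ.of_comp {i' : R' →+* K} (α : R →+* R') {t z : LaurentSeries K}
    (hz : Integ (i'.comp α) t z) : Integ i' t z := by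
  have := hz.map i' α (RingHom.id K) (by simp)
  simpa using this

end Map

variable (ℓ : ℕ) (A : ValuationSubring Kb) (F₀ : IntermediateField ℚ (LaurentSeries ℚ))
  (t : LaurentSeries ℚ)

/-- `F₀` as a `ℚ`-subspace (for the default, coefficientwise, module structure). -/
def fieldSubmodule : Submodule ℚ (LaurentSeries ℚ) where
  carrier := F₀
  add_mem' := add_mem
  zero_mem' := zero_mem _
  smul_mem' c z hz := by
    rw [smul_eq_algebraMap_mul]
    exact mul_mem (F₀.algebraMap_mem c) hz

theorem mem_fieldSubmodule {f : LaurentSeries ℚ} : f ∈ fieldSubmodule F₀ ↔ f ∈ F₀ := Iff.rfl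

theorem coe_fieldSubmodule : (fieldSubmodule F₀ : Set (LaurentSeries ℚ)) = F₀ := rfl

/-- the `ℚ̄`-subspace of the elements integral over `ℚ̄[T]`. -/
def intK (T : LaurentSeries Kb) : Submodule Kb (LaurentSeries Kb) where
  carrier := {z | Integ (RingHom.id Kb) T z}
  add_mem' ha hb := ha.add hb
  zero_mem' := integ_zero _ _
  smul_mem' c z hz := by
    rw [smul_eq_algebraMap_mul]
    exact (integ_const (RingHom.id Kb) T c).mul hz

theorem mem_intK {T z : LaurentSeries Kb} : z ∈ intK T ↔ Integ (RingHom.id Kb) T z := Iff.rfl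

/-- the elements of `F₀` integral over `ℤ_(ℓ)[t]` -/
def B0 : AddSubgroup (LaurentSeries ℚ) where
  carrier := {f | f ∈ F₀ ∧ Integ (GaloisRep.ratLocalizedAt ℓ).subtype t f}
  add_mem' ha hb := ⟨add_mem ha.1 hb.1, ha.2.add hb.2⟩
  zero_mem' := ⟨zero_mem _, integ_zero _ _⟩
  neg_mem' ha := ⟨neg_mem ha.1, ha.2.neg⟩

theorem mem_B0 {f : LaurentSeries ℚ} :
    f ∈ B0 ℓ F₀ t ↔ f ∈ F₀ ∧ Integ (GaloisRep.ratLocalizedAt ℓ).subtype t f := Iff.rfl

/-- the elements of `ℚ̄ F₀` integral over `A[t]` whose expansion has coefficients in `A` -/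
def SA : AddSubgroup (LaurentSeries Kb) where
  carrier := {z | z ∈ laurentBaseChange Kb F₀ ∧ Integ A.subtype (coeffEmb Kb t) z ∧
    ∀ k : ℤ, z.coeff k ∈ A}
  add_mem' ha hb := ⟨add_mem ha.1 hb.1, ha.2.1.add hb.2.1, fun k => by
    rw [HahnSeries.coeff_add]; exact add_mem (ha.2.2 k) (hb.2.2 k)⟩
  zero_mem' := ⟨zero_mem _, integ_zero _ _, fun k => by
    rw [HahnSeries.coeff_zero]; exact zero_mem _⟩
  neg_mem' ha := ⟨neg_mem ha.1, ha.2.1.neg, fun k => by
    rw [HahnSeries.coeff_neg]; exact neg_mem (ha.2.2 k)⟩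

theorem mem_SA {z : LaurentSeries Kb} :
    z ∈ SA A F₀ t ↔ z ∈ laurentBaseChange Kb F₀ ∧ Integ A.subtype (coeffEmb Kb t) z ∧
      ∀ k : ℤ, z.coeff k ∈ A := Iff.rfl

/-- the `q`-expansion principle for `B0`. -/
structure QEP' : Prop where
  int : ∀ f ∈ B0 ℓ F₀ t, S28.IsInt ℓ f
  div : ∀ f ∈ B0 ℓ F₀ t, S28.IsDivl ℓ f → ∃ g ∈ B0 ℓ F₀ t, f = (ℓ : LaurentSeries ℚ) * g

end Fermat.Agent.S37.QA

end
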