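import Mathlib
import Fermat.Agent.S37.QA.Defs

/-!
# S37-QA1: the compositum `ℚ̄ F₀` is the `ℚ̄`-span of `F₀` (owner helper206)
-/

set_option autoImplicit false

noncomputable section

namespace Fermat.Agent.S37.QA

open ModularCurve Polynomial

/-- the `ℚ̄`-span of `F₀`. -/
private abbrev spanT (F₀ : IntermediateField ℚ (LaurentSeries ℚ)) :
    Submodule Kb (LaurentSeries Kb) :=
  Submodule.span Kb (⇑(coeffEmb Kb) '' (F₀ : Set (LaurentSeries ℚ)))

private theorem span_coeffEmb_mem (F₀ : IntermediateField ℚ (LaurentSeries ℚ))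
    {a : LaurentSeries ℚ} (ha : a ∈ F₀) : coeffEmb Kb a ∈ spanT F₀ :=
  Submodule.subset_span ⟨a, ha, rfl⟩

private theorem span_mul_gen (F₀ : IntermediateField ℚ (LaurentSeries ℚ))
    {a : LaurentSeries ℚ} (ha : a ∈ F₀) {y : LaurentSeries Kb} (hy : y ∈ spanT F₀) :
    coeffEmb Kb a * y ∈ spanT F₀ := by
  induction hy using Submodule.span_induction with
  | mem y hy =>
    obtain ⟨b, hb, rfl⟩ := hy
    rw [← map_mul]
    exact span_coeffEmb_mem F₀ (mul_mem ha hb)
  | zero => rw [mul_zero]; exact zero_mem _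
  | add y z _ _ hy hz => rw [mul_add]; exact add_mem hy hz
  | smul c y _ hy =>
    have : coeffEmb Kb a * (c • y) = c • (coeffEmb Kb a * y) := by
      rw [smul_eq_algebraMap_mul, smul_eq_algebraMap_mul]; ring
    rw [this]
    exact Submodule.smul_mem _ c hy

private theorem span_mul_mem (F₀ : IntermediateField ℚ (LaurentSeries ℚ))
    {x y : LaurentSeries Kb} (hx : x ∈ spanT F₀) (hy : y ∈ spanT F₀) : x * y ∈ spanT F₀ := by
  induction hx using Submodule.span_induction with
  | mem x hx =>
    obtain ⟨a, ha, rfl⟩ := hx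
    exact span_mul_gen F₀ ha hy
  | zero => rw [zero_mul]; exact zero_mem _
  | add x z _ _ hx hz => rw [add_mul]; exact add_mem hx hz
  | smul c x _ hx =>
    have : (c • x) * y = c • (x * y) := by
      rw [smul_eq_algebraMap_mul, smul_eq_algebraMap_mul]; ring
    rw [this]
    exact Submodule.smul_mem _ c hx

private theorem span_one_mem (F₀ : IntermediateField ℚ (LaurentSeries ℚ)) :
    (1 : LaurentSeries Kb) ∈ spanT F₀ := by
  have := span_coeffEmb_mem F₀ (one_mem F₀)
  rwa [map_one] at this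

private theorem span_const_mem (F₀ : IntermediateField ℚ (LaurentSeries ℚ)) (c : Kb) :
    algebraMap Kb (LaurentSeries Kb) c ∈ spanT F₀ := by
  have := Submodule.smul_mem _ c (span_one_mem F₀)
  rwa [smul_eq_algebraMap_mul, mul_one] at this

/-- the embedding of `F₀` in `ℚ̄((q))`. -/
private def spanEmb (F₀ : IntermediateField ℚ (LaurentSeries ℚ)) : F₀ →+* LaurentSeries Kb :=
  (coeffEmb Kb).comp (algebraMap F₀ (LaurentSeries ℚ))

private theorem span_inv_mem (F₀ : IntermediateField ℚ (LaurentSeries ℚ))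
    {x : LaurentSeries Kb} (hx : x ∈ spanT F₀) : x⁻¹ ∈ spanT F₀ := by
  letI : Algebra F₀ (LaurentSeries Kb) := (spanEmb F₀).toAlgebra
  have hmap : ∀ a : F₀, algebraMap F₀ (LaurentSeries Kb) a = coeffEmb Kb (a : LaurentSeries ℚ) :=
    fun a => rfl
  let TA : Subalgebra F₀ (LaurentSeries Kb) :=
    { carrier := spanT F₀
      mul_mem' := fun hx hy => span_mul_mem F₀ hx hy
      add_mem' := fun hx hy => add_mem hx hy
      algebraMap_mem' := fun a => by
        rw [hmap]
        exact span_coeffEmb_mem F₀ a.2 }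
  have hconst : ∀ c : Kb, IsAlgebraic F₀ (algebraMap Kb (LaurentSeries Kb) c) := by
    intro c
    obtain ⟨q, hq0, hq⟩ := (AlgebraicClosure.isAlgebraic ℚ).isAlgebraic c
    refine ⟨q.map (algebraMap ℚ F₀), (Polynomial.map_ne_zero_iff (algebraMap ℚ F₀).injective).2 hq0,
      ?_⟩
    rw [Polynomial.aeval_def, Polynomial.eval₂_map]
    have hcomp : (algebraMap F₀ (LaurentSeries Kb)).comp (algebraMap ℚ F₀)
        = (algebraMap Kb (LaurentSeries Kb)).comp (algebraMap ℚ Kb) := Subsingleton.elim _ _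
    have hq' : Polynomial.eval₂ (algebraMap ℚ Kb) c q = 0 := by
      rw [Polynomial.aeval_def] at hq
      rw [← hq]
      exact congrArg (fun f : ℚ →+* Kb => Polynomial.eval₂ f c q) (Subsingleton.elim _ _)
    rw [hcomp, ← Polynomial.hom_eval₂, hq', map_zero]
  have halg : ∀ z ∈ spanT F₀, IsAlgebraic F₀ z := by
    intro z hz
    induction hz using Submodule.span_induction with
    | mem z hz =>
      obtain ⟨a, ha, rfl⟩ := hz
      exact isAlgebraic_algebraMap (⟨a, ha⟩ : F₀)
    | zero => exact isAlgebraic_zero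
    | add y z _ _ hy hz => exact hy.add hz
    | smul c y _ hy =>
      rw [smul_eq_algebraMap_mul]
      exact (hconst c).mul hy
  exact TA.inv_mem_of_algebraic (x := ⟨x, hx⟩) (halg x hx)

/-- the compositum `ℚ̄ F₀` is the `ℚ̄`-span of `F₀`. -/
theorem mem_span_of_mem_baseChange (F₀ : IntermediateField ℚ (LaurentSeries ℚ))
    {z : LaurentSeries Kb} (hz : z ∈ laurentBaseChange Kb F₀) :
    z ∈ Submodule.span Kb (⇑(coeffEmb Kb) '' (F₀ : Set (LaurentSeries ℚ))) := by
  rw [mem_laurentBaseChange_iff] at hz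
  induction hz using Subfield.closure_induction with
  | mem y hy =>
    rcases hy with ⟨c, rfl⟩ | ⟨a, ha, rfl⟩
    · exact span_const_mem F₀ c
    · exact span_coeffEmb_mem F₀ ha
  | one => exact span_one_mem F₀
  | add x y _ _ hx hy => exact add_mem hx hy
  | neg x _ hx => exact neg_mem hx
  | inv x _ hx => exact span_inv_mem F₀ hx
  | mul x y _ _ hx hy => exact span_mul_mem F₀ hx hy

end Fermat.Agent.S37.QA

end
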