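import Fermat.Agent.S37.QA.Defs
import Fermat.Agent.S05.Inertia

/-!
# S37-QA6: closure properties of `B0` and `SA`
-/

set_option autoImplicit false

noncomputable section

namespace Fermat.Agent.S37.QA

open ModularCurve Polynomial

section Closure

variable (ℓ : ℕ) [Fact ℓ.Prime] (A : ValuationSubring Kb)
  (F₀ : IntermediateField ℚ (LaurentSeries ℚ)) (t : LaurentSeries ℚ)

theorem algebraMap_mem_of_mem_ratLocalizedAt (hA : A.LiesOverPrime ℓ) {r : ℚ}
    (hr : r ∈ GaloisRep.ratLocalizedAt ℓ) : algebraMap ℚ Kb r ∈ A := by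
  have hden : ¬ (ℓ : ℤ) ∣ (r.den : ℤ) := by
    intro h
    have h1 : ℓ ∣ r.den := by exact_mod_cast h
    have h2 : r.den.Coprime ℓ := hr
    have h3 : ℓ ∣ 1 := by
      rw [← h2]
      exact Nat.dvd_gcd h1 dvd_rfl
    exact (Fact.out : ℓ.Prime).one_lt.ne' (Nat.dvd_one.1 h3)
  have hv : A.valuation (((r.den : ℤ) : Kb)) = 1 :=
    Fermat.Agent.S05.valuation_intCast_eq_one A (Fact.out : ℓ.Prime) hA hden
  have hn : A.valuation ((r.num : Kb)) ≤ 1 := Fermat.Agent.S05.valuation_intCast_le_one A r.num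
  rw [← A.valuation_le_one_iff]
  have hr' : algebraMap ℚ Kb r = (r.num : Kb) / (((r.den : ℤ) : Kb)) := by
    conv_lhs => rw [← Rat.num_div_den r]
    simp
  rw [hr', map_div₀, hv, div_one]
  exact hn

theorem smul_mem_B0 {r : ℚ} (hr : r ∈ GaloisRep.ratLocalizedAt ℓ) {f : LaurentSeries ℚ}
    (hf : f ∈ B0 ℓ F₀ t) : algebraMap ℚ (LaurentSeries ℚ) r * f ∈ B0 ℓ F₀ t := by
  refine ⟨mul_mem (F₀.algebraMap_mem r) hf.1, Integ.mul ?_ hf.2⟩
  exact integ_const (GaloisRep.ratLocalizedAt ℓ).subtype t ⟨r, hr⟩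

theorem coeffEmb_mem_SA (hA : A.LiesOverPrime ℓ) (h : QEP' ℓ F₀ t) {f : LaurentSeries ℚ}
    (hf : f ∈ B0 ℓ F₀ t) : coeffEmb Kb f ∈ SA A F₀ t := by
  refine ⟨coeffEmb_mem_laurentBaseChange Kb hf.1, ?_, fun k => ?_⟩
  · let α : ↥(GaloisRep.ratLocalizedAt ℓ) →+* A :=
      ((algebraMap ℚ Kb).comp (GaloisRep.ratLocalizedAt ℓ).subtype).codRestrict A.toSubring
        (fun r => algebraMap_mem_of_mem_ratLocalizedAt ℓ A hA r.2)
    exact hf.2.map A.subtype α (algebraMap ℚ Kb) (RingHom.ext fun r => rfl)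
  · rw [coeffEmb_coeff]
    exact algebraMap_mem_of_mem_ratLocalizedAt ℓ A hA (h.int f hf k)

theorem smul_mem_SA {a : Kb} (ha : a ∈ A) {y : LaurentSeries Kb} (hy : y ∈ SA A F₀ t) :
    algebraMap Kb (LaurentSeries Kb) a * y ∈ SA A F₀ t := by
  refine ⟨mul_mem ((laurentBaseChange Kb F₀).algebraMap_mem a) hy.1, Integ.mul ?_ hy.2.1,
    fun k => ?_⟩
  · exact integ_const A.subtype (coeffEmb Kb t) ⟨a, ha⟩
  · rw [coeff_algebraMap_mul]
    exact mul_mem ha (hy.2.2 k)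

/-- lifting a series with coefficients in `A`. -/
theorem exists_lift {z : LaurentSeries Kb} (h : ∀ k : ℤ, z.coeff k ∈ A) :
    ∃ y : LaurentSeries A, coeffMap A.subtype y = z := by
  refine ⟨⟨fun k => ⟨z.coeff k, h k⟩, ?_⟩, ?_⟩
  · refine z.isPWO_support.mono ?_
    intro k hk
    rw [Function.mem_support] at hk
    rw [HahnSeries.mem_support]
    intro h0
    exact hk (Subtype.ext h0)
  · ext k
    rfl

end Closure

end Fermat.Agent.S37.QA

end
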