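import Fermat.Agent.S37.QA.Main
import Fermat.Agent.S37.QA.Bridge
import Fermat.Agent.S37.Nodes

/-!
# S37-QA: the common statement behind `QAFin` and `QAInf` (owner helper133)
-/

set_option autoImplicit false

noncomputable section

namespace Fermat.Agent.S37.QA

open ModularCurve Polynomial Fermat.Agent.S24 Fermat.Agent.S37 ModularCurve.IgusaScheme

variable (A : ValuationSubring Kbar) (N : ℕ) [NeZero N] (ℓ : ℕ) [Fact ℓ.Prime]

/-- the common statement. -/
theorem qa_common (hA : A.LiesOverPrime ℓ) (x₀ : ↥(modularFunctionFieldFull N)) (x : FN N)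
    (hx : (x : LaurentSeries Kb) = coeffEmb Kb (x₀ : LaurentSeries ℚ))
    (h : S28.QEP N ℓ (chartAlg N ℓ {x₀})) :
    (∀ b : FN N, (Subring.closure (constSet A N ∪ {x})).subtype.IsIntegralElem b →
      ∃ y : LaurentSeries A, HasIntExp A N b y) ∧
    (∀ z : FN N, z ≠ 0 → IsIntegral (Algebra.adjoin Kbar {x}) z →
      ∃ (c : Kbar) (z' : FN N) (y : LaurentSeries A), c ≠ 0 ∧ z = algebraMap Kbar (FN N) c * z' ∧
        (Subring.closure (constSet A N ∪ {x})).subtype.IsIntegralElem z' ∧ HasIntExp A N z' y ∧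
          rho A y ≠ 0) := by
  have hq := qep'_of_QEP N ℓ x₀ h
  constructor
  · intro b hb
    rw [isIntegralElem_closure_iff, hx] at hb
    exact exists_lift A (main1 hA x₀.2 hq b.2 hb)
  · intro z hz0 hz
    rw [isIntegral_adjoin_iff, hx] at hz
    obtain ⟨c, hc, z', hz', hzz', k, hk⟩ := main2 (A := A) hA hq z.2
      (fun h0 => hz0 (Subtype.ext h0)) hz
    obtain ⟨y, hy⟩ := exists_lift A hz'.2.2
    refine ⟨c, ⟨z', hz'.1⟩, y, hc, Subtype.ext hzz', ?_, hy, ?_⟩
    · rw [isIntegralElem_closure_iff, hx]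
      exact hz'.2.1
    · intro h0
      apply hk
      have h1 : (rho A y).coeff k = 0 := by rw [h0, HahnSeries.coeff_zero]
      rw [coeffMap_coeff, IsLocalRing.residue_eq_zero_iff] at h1
      have h2 : ((y.coeff k : A) : Kb) = z'.coeff k := by
        rw [← hy, coeffMap_coeff]; rfl
      rw [← h2]
      exact (A.coe_mem_nonunits_iff).mpr h1

end Fermat.Agent.S37.QA

end
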