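import Mathlib
import Fermat.Agent.S37.QA.Defs

/-!
# S37-QA4: clearing denominators  (owner helper21)
-/

set_option autoImplicit false

noncomputable section

namespace Fermat.Agent.S37.QA

open ModularCurve Polynomial

theorem Denom_intCast_mem (ℓ : ℕ) (z : ℤ) : (z : ℚ) ∈ GaloisRep.ratLocalizedAt ℓ :=
  intCast_mem _ z

/-- a common denominator for a polynomial in two variables over `ℚ`. -/
theorem Denom_exists_common (P : ℚ[X][X]) :
    ∃ d : ℕ, d ≠ 0 ∧ ∀ i j, ∃ z : ℤ, (d : ℚ) * (P.coeff i).coeff j = z := by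
  classical
  refine ⟨∏ i ∈ P.support, ∏ j ∈ (P.coeff i).support, ((P.coeff i).coeff j).den, ?_, ?_⟩
  · exact Finset.prod_ne_zero_iff.mpr fun i _ => Finset.prod_ne_zero_iff.mpr fun j _ =>
      Rat.den_nz _
  · intro i j
    by_cases hi : i ∈ P.support
    · by_cases hj : j ∈ (P.coeff i).support
      · have h1 : ((P.coeff i).coeff j).den ∣
            ∏ i ∈ P.support, ∏ j ∈ (P.coeff i).support, ((P.coeff i).coeff j).den :=
          (Finset.dvd_prod_of_mem _ hj).trans
            (Finset.dvd_prod_of_mem (fun i => ∏ j ∈ (P.coeff i).support, ((P.coeff i).coeff j).den)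
              hi)
        obtain ⟨e, he⟩ := h1
        refine ⟨e * ((P.coeff i).coeff j).num, ?_⟩
        rw [he]
        push_cast
        have := Rat.den_mul_eq_num ((P.coeff i).coeff j)
        calc ((((P.coeff i).coeff j).den : ℚ) * e) * (P.coeff i).coeff j
            = e * ((((P.coeff i).coeff j).den : ℚ) * (P.coeff i).coeff j) := by ring
          _ = e * (((P.coeff i).coeff j).num : ℚ) := by rw [this]
      · refine ⟨0, ?_⟩
        rw [Polynomial.notMem_support_iff.mp hj]
        simp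
    · refine ⟨0, ?_⟩
      rw [Polynomial.notMem_support_iff.mp hi]
      simp

theorem Denom_ev_comp (ℓ : ℕ) (t : LaurentSeries ℚ) :
    (ev (RingHom.id ℚ) t).comp (Polynomial.mapRingHom (GaloisRep.ratLocalizedAt ℓ).subtype) =
      ev (GaloisRep.ratLocalizedAt ℓ).subtype t := by
  refine Polynomial.ringHom_ext (fun r => ?_) ?_
  · simp
  · simp

/-- clearing denominators. -/
theorem exists_natCast_mul_integ (ℓ : ℕ) (t f : LaurentSeries ℚ) (h : Integ (RingHom.id ℚ) t f) :
    ∃ d : ℕ, d ≠ 0 ∧ Integ (GaloisRep.ratLocalizedAt ℓ).subtype t ((d : LaurentSeries ℚ) * f) := by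
  obtain ⟨P, hP, h0⟩ := h
  obtain ⟨d, hd, hint⟩ := Denom_exists_common P
  refine ⟨d, hd, ?_⟩
  set φ := Polynomial.mapRingHom (GaloisRep.ratLocalizedAt ℓ).subtype with hφ
  have hmem : ∀ p : ℚ[X], (∀ j, p.coeff j ∈ GaloisRep.ratLocalizedAt ℓ) → p ∈ φ.range := by
    intro p hp
    have : p ∈ Polynomial.lifts (GaloisRep.ratLocalizedAt ℓ).subtype := by
      rw [Polynomial.lifts_iff_coeff_lifts]
      intro j
      exact ⟨⟨_, hp j⟩, rfl⟩
    obtain ⟨q, hq⟩ := (Polynomial.mem_lifts _).mp this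
    exact ⟨q, hq⟩
  have hCd : (C (d : ℚ) : ℚ[X]) ∈ φ.range := by
    refine hmem _ fun j => ?_
    rw [Polynomial.coeff_C]
    split_ifs
    · exact natCast_mem _ d
    · exact zero_mem _
  have hlift : P.scaleRoots (C (d : ℚ)) ∈ Polynomial.lifts φ := by
    rw [Polynomial.lifts_iff_coeff_lifts]
    intro i
    rw [Polynomial.coeff_scaleRoots]
    change _ ∈ (φ.range : Set ℚ[X])
    rcases lt_trichotomy i P.natDegree with hi | hi | hi
    · obtain ⟨m, hm⟩ : ∃ m, P.natDegree - i = m + 1 := ⟨P.natDegree - i - 1, by omega⟩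
      rw [hm, pow_succ, ← mul_assoc, mul_right_comm]
      refine mul_mem (hmem _ fun j => ?_) (pow_mem hCd m)
      rw [mul_comm, Polynomial.coeff_C_mul]
      obtain ⟨z, hz⟩ := hint i j
      rw [hz]
      exact Denom_intCast_mem ℓ z
    · subst hi
      rw [hP.coeff_natDegree]
      simp only [one_mul, Nat.sub_self, pow_zero]
      exact one_mem _
    · rw [Polynomial.coeff_eq_zero_of_natDegree_lt hi, zero_mul]
      exact zero_mem _
  obtain ⟨Q, hQ, -, hQm⟩ := Polynomial.lifts_and_natDegree_eq_and_monic hlift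
    ((Polynomial.monic_scaleRoots_iff _).mpr hP)
  refine ⟨Q, hQm, ?_⟩
  rw [← Denom_ev_comp, ← Polynomial.eval₂_map, hQ]
  have hev : ev (RingHom.id ℚ) t (C (d : ℚ)) = (d : LaurentSeries ℚ) := by
    rw [ev_C]
    simp
  rw [← hev, Polynomial.scaleRoots_eval₂_mul, h0, mul_zero]

end Fermat.Agent.S37.QA

end
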