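import Mathlib
import Fermat.Agent.S37.QA.Defs

/-!
# S37-QA2: Galois descent for subspaces of `ℚ̄((q))` (trace argument).  Owner helper267.
-/

set_option autoImplicit false

noncomputable section

namespace Fermat.Agent.S37.QA

open ModularCurve Polynomial

theorem descent_coeffMap_smul {K : Type*} [Field K] (φ : K →+* K) (c : K) (y : LaurentSeries K) :
    coeffMap φ (c • y) = φ c • coeffMap φ y := by
  ext k
  simp [HahnSeries.coeff_smul]

theorem descent_coeffMap_coeffEmb (σ : Kb →ₐ[ℚ] Kb) (f : LaurentSeries ℚ) :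
    coeffMap (σ : Kb →+* Kb) (coeffEmb Kb f) = coeffEmb Kb f := by
  rw [coeffEmb, coeffMap_coeffMap]
  exact coeffMap_congr (Subsingleton.elim _ _) f

theorem descent_coeffEmb_smul (r : ℚ) (f : LaurentSeries ℚ) :
    coeffEmb Kb (r • f) = algebraMap ℚ Kb r • coeffEmb Kb f := by
  ext k
  simp [HahnSeries.coeff_smul]

/-- Galois descent for subspaces (trace argument). -/
theorem galois_descent (V : Submodule ℚ (LaurentSeries ℚ)) (W : Submodule Kb (LaurentSeries Kb))
    (hW : ∀ (σ : Kb →ₐ[ℚ] Kb) (z : LaurentSeries Kb), z ∈ W → coeffMap (σ : Kb →+* Kb) z ∈ W)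
    {z : LaurentSeries Kb}
    (hz : z ∈ Submodule.span Kb (⇑(coeffEmb Kb) '' (V : Set (LaurentSeries ℚ)))) (hzW : z ∈ W) :
    z ∈ Submodule.span Kb (⇑(coeffEmb Kb) '' {f | f ∈ V ∧ coeffEmb Kb f ∈ W}) := by
  classical
  have hcl : IsAlgClosure ℚ Kb := by
    have h : (DivisionRing.toRatAlgebra : Algebra ℚ (AlgebraicClosure ℚ)) =
        AlgebraicClosure.instAlgebra ℚ := Subsingleton.elim _ _
    rw [h]
    infer_instance
  have hnorm : Normal ℚ Kb := IsAlgClosure.normal ℚ Kb
  have hint : Algebra.IsIntegral ℚ Kb := inferInstance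
  obtain ⟨n, c, g, hg⟩ := (Submodule.mem_span_set').1 hz
  have hg' : ∀ i, ∃ f : LaurentSeries ℚ, f ∈ V ∧ coeffEmb Kb f = (g i : LaurentSeries Kb) :=
    fun i => (g i).2
  choose f hfV hfg using hg'
  have hzsum : z = ∑ i, c i • coeffEmb Kb (f i) := by
    rw [← hg]
    exact Finset.sum_congr rfl fun i _ => by rw [hfg]
  -- the finite extension generated by the coefficients
  let K' : IntermediateField ℚ Kb := IntermediateField.adjoin ℚ (Set.range c)
  have : Finite (Set.range c) := (Set.finite_range c).to_subtype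
  have hfd : FiniteDimensional ℚ K' :=
    IntermediateField.finiteDimensional_adjoin fun x _ => Algebra.IsIntegral.isIntegral x
  let c' : Fin n → K' := fun i => ⟨c i, IntermediateField.subset_adjoin ℚ _ ⟨i, rfl⟩⟩
  let b := Module.finBasis ℚ K'
  let bd := (Algebra.traceForm ℚ K').dualBasis (traceForm_nondegenerate ℚ K') b
  have hexp : ∀ x : K', x = ∑ m, Algebra.trace ℚ K' (x * b m) • bd m := by
    intro x
    conv_lhs => rw [← bd.sum_repr x]
    refine Finset.sum_congr rfl fun m _ => ?_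
    rw [LinearMap.BilinForm.dualBasis_repr_apply, Algebra.traceForm_apply]
  let σ : (K' →ₐ[ℚ] Kb) → (Kb →ₐ[ℚ] Kb) := fun τ => τ.liftNormal Kb
  have hσ : ∀ (τ : K' →ₐ[ℚ] Kb) (x : K'), σ τ (x : Kb) = τ x := fun τ x =>
    AlgHom.liftNormal_commutes τ Kb x
  -- the descended vectors
  let gg : Fin (Module.finrank ℚ K') → LaurentSeries ℚ :=
    fun m => ∑ i, Algebra.trace ℚ K' (c' i * b m) • f i
  have hggV : ∀ m, gg m ∈ V := fun m =>
    Submodule.sum_mem _ fun i _ => Submodule.smul_mem _ _ (hfV i)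
  have hemb : ∀ m, coeffEmb Kb (gg m) =
      ∑ i, algebraMap ℚ Kb (Algebra.trace ℚ K' (c' i * b m)) • coeffEmb Kb (f i) := by
    intro m
    rw [map_sum]
    exact Finset.sum_congr rfl fun i _ => descent_coeffEmb_smul _ _
  have hggW : ∀ m, coeffEmb Kb (gg m) ∈ W := by
    intro m
    have hT : ∑ τ : K' →ₐ[ℚ] Kb, (σ τ (b m : Kb)) • coeffMap ((σ τ : Kb →ₐ[ℚ] Kb) : Kb →+* Kb) z
        ∈ W := Submodule.sum_mem _ fun τ _ => Submodule.smul_mem _ _ (hW _ _ hzW)
    have hEq : ∑ τ : K' →ₐ[ℚ] Kb,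
        (σ τ (b m : Kb)) • coeffMap ((σ τ : Kb →ₐ[ℚ] Kb) : Kb →+* Kb) z = coeffEmb Kb (gg m) := by
      rw [hemb m]
      have h1 : ∀ τ : K' →ₐ[ℚ] Kb,
          (σ τ (b m : Kb)) • coeffMap ((σ τ : Kb →ₐ[ℚ] Kb) : Kb →+* Kb) z =
            ∑ i, τ (c' i * b m) • coeffEmb Kb (f i) := by
        intro τ
        rw [hzsum, map_sum, Finset.smul_sum]
        refine Finset.sum_congr rfl fun i _ => ?_
        rw [descent_coeffMap_smul, descent_coeffMap_coeffEmb, smul_smul, hσ]
        have : ((σ τ : Kb →ₐ[ℚ] Kb) : Kb →+* Kb) (c i) = τ (c' i) := hσ τ (c' i)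
        rw [this, map_mul, mul_comm]
      rw [Finset.sum_congr rfl fun τ _ => h1 τ, Finset.sum_comm]
      refine Finset.sum_congr rfl fun i _ => ?_
      rw [← Finset.sum_smul, trace_eq_sum_embeddings Kb]
    rw [← hEq]
    exact hT
  have hfinal : z = ∑ m, (bd m : Kb) • coeffEmb Kb (gg m) := by
    have h2 : ∀ i, c i = ∑ m, algebraMap ℚ Kb (Algebra.trace ℚ K' (c' i * b m)) * (bd m : Kb) := by
      intro i
      have h3 := congrArg (fun x : K' => (x : Kb)) (hexp (c' i))
      simp only [AddSubmonoidClass.coe_finsetSum] at h3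
      rw [show c i = ((c' i : K') : Kb) from rfl, h3]
      refine Finset.sum_congr rfl fun m _ => ?_
      rw [IntermediateField.coe_smul, Algebra.smul_def]
    rw [hzsum]
    simp_rw [hemb, Finset.smul_sum, smul_smul]
    rw [Finset.sum_comm]
    refine Finset.sum_congr rfl fun i _ => ?_
    rw [← Finset.sum_smul]
    congr 1
    rw [h2 i]
    exact Finset.sum_congr rfl fun m _ => mul_comm _ _
  rw [hfinal]
  exact Submodule.sum_mem _ fun m _ => Submodule.smul_mem _ _
    (Submodule.subset_span ⟨gg m, ⟨hggV m, hggW m⟩, rfl⟩)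

end Fermat.Agent.S37.QA

end
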