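import Fermat.Agent.S37.QA.Defs

/-!
# S37-QA3: descent of integrality along `ℚ ⊆ ℚ̄`
(coefficientwise `ℚ`-linear projection; proved by helper124)
-/

set_option autoImplicit false

noncomputable section

namespace Fermat.Agent.S37.QA

open ModularCurve Polynomial

namespace Proj

variable (π : Kb →ₗ[ℚ] ℚ)

/-- coefficientwise `π` on `ℚ̄[X]`. -/
def piP : Kb[X] →ₗ[ℚ] ℚ[X] :=
  Polynomial.lsum fun a => (Polynomial.monomial a : ℚ →ₗ[ℚ] ℚ[X]).comp π

theorem piP_monomial (a : ℕ) (c : Kb) : piP π (monomial a c) = monomial a (π c) := by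
  simp [piP, Polynomial.lsum_apply, Polynomial.sum_monomial_index]

theorem coeff_piP (P : Kb[X]) (a : ℕ) : (piP π P).coeff a = π (P.coeff a) := by
  induction P using Polynomial.induction_on' with
  | add p q hp hq => rw [map_add, coeff_add, hp, hq, coeff_add, map_add]
  | monomial n c =>
    rw [piP_monomial, coeff_monomial, coeff_monomial]
    split_ifs <;> simp

/-- coefficientwise `π` on `ℚ̄[X][X]`. -/
def piPP : Kb[X][X] →ₗ[ℚ] ℚ[X][X] :=
  Polynomial.lsum fun i =>
    ((Polynomial.monomial i : ℚ[X] →ₗ[ℚ[X]] ℚ[X][X]).restrictScalars ℚ).comp (piP π)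

theorem piPP_monomial (i : ℕ) (Q : Kb[X]) : piPP π (monomial i Q) = monomial i (piP π Q) := by
  simp [piPP, Polynomial.lsum_apply, Polynomial.sum_monomial_index]

theorem coeff_piPP (P : Kb[X][X]) (i : ℕ) : (piPP π P).coeff i = piP π (P.coeff i) := by
  induction P using Polynomial.induction_on' with
  | add p q hp hq => rw [map_add, coeff_add, hp, hq, coeff_add, map_add]
  | monomial n c =>
    rw [piPP_monomial, coeff_monomial, coeff_monomial]
    split_ifs <;> simp

theorem key_inner (t : LaurentSeries ℚ) (Q : Kb[X]) (y : LaurentSeries ℚ) (k : ℤ) :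
    π ((ev (RingHom.id Kb) (coeffEmb Kb t) Q * coeffEmb Kb y).coeff k)
      = (ev (RingHom.id ℚ) t (piP π Q) * y).coeff k := by
  induction Q using Polynomial.induction_on' with
  | add p q hp hq =>
    rw [map_add, add_mul, HahnSeries.coeff_add, map_add, hp, hq, map_add, map_add, add_mul,
      HahnSeries.coeff_add]
  | monomial a c =>
    rw [piP_monomial, ← Polynomial.C_mul_X_pow_eq_monomial, ← Polynomial.C_mul_X_pow_eq_monomial,
      map_mul, map_mul, map_pow, map_pow, ev_C, ev_C, ev_X, ev_X, ← map_pow, mul_assoc, mul_assoc,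
      ← map_mul, coeff_algebraMap_mul, coeff_algebraMap_mul, coeffEmb_coeff, RingHom.id_apply,
      RingHom.id_apply]
    have : c * (algebraMap ℚ Kb) ((t ^ a * y).coeff k) = (t ^ a * y).coeff k • c := by
      rw [Algebra.smul_def, mul_comm]
    rw [this, map_smul, smul_eq_mul, mul_comm]

theorem key (t : LaurentSeries ℚ) (P : Kb[X][X]) (u : LaurentSeries ℚ) (k : ℤ) :
    π ((P.eval₂ (ev (RingHom.id Kb) (coeffEmb Kb t)) (coeffEmb Kb u)).coeff k)
      = ((piPP π P).eval₂ (ev (RingHom.id ℚ) t) u).coeff k := by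
  induction P using Polynomial.induction_on' with
  | add p q hp hq =>
    rw [eval₂_add, HahnSeries.coeff_add, map_add, hp, hq, map_add, eval₂_add,
      HahnSeries.coeff_add]
  | monomial i Q =>
    rw [piPP_monomial, eval₂_monomial, eval₂_monomial, ← map_pow, key_inner]

end Proj

open Proj in
/-- descent of integrality along `ℚ ⊆ ℚ̄` (coefficientwise `ℚ`-linear projection). -/
theorem integ_of_integ_coeffEmb (t f : LaurentSeries ℚ)
    (h : Integ (RingHom.id Kb) (coeffEmb Kb t) (coeffEmb Kb f)) : Integ (RingHom.id ℚ) t f := by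
  obtain ⟨χ, hmonic, h0⟩ := h
  obtain ⟨π, hπ⟩ := LinearMap.exists_leftInverse_of_injective (Algebra.linearMap ℚ Kb)
    (LinearMap.ker_eq_bot.mpr (algebraMap ℚ Kb).injective)
  have hπ1 : π 1 = 1 := by
    have := LinearMap.congr_fun hπ 1
    simpa using this
  set χ1 : ℚ[X][X] := piPP π χ with hχ1
  have hdeg1 : χ1.natDegree ≤ χ.natDegree := by
    rw [natDegree_le_iff_coeff_eq_zero]
    intro m hm
    rw [hχ1, coeff_piPP, coeff_eq_zero_of_natDegree_lt hm, map_zero]
  have hone : piP π 1 = 1 := by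
    rw [← Polynomial.monomial_zero_one, piP_monomial, hπ1, Polynomial.monomial_zero_one]
  have hmonic1 : χ1.Monic := by
    refine monic_of_natDegree_le_of_coeff_eq_one _ hdeg1 ?_
    rw [hχ1, coeff_piPP, hmonic.coeff_natDegree, hone]
  refine ⟨χ1, hmonic1, ?_⟩
  ext k
  rw [hχ1, ← key, h0]
  simp

end Fermat.Agent.S37.QA

end
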