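import Fermat.Agent.S37.QA.Defs
import Fermat.Agent.S28.ZlRing

/-!
# S37-QA5: Gaussian elimination (owner helper133)

Every nonzero element of the `ℚ̄`-span of `B₀` is a constant times an element of the "`A`-span"
of `B₀` which has a coefficient that is a unit of `A`.
-/

set_option autoImplicit false

noncomputable section

namespace Fermat.Agent.S37.QA

open ModularCurve Polynomial

namespace Reduced

theorem coeffEmb_algebraMap_mul (r : ℚ) (g : LaurentSeries ℚ) :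
    coeffEmb Kb (algebraMap ℚ (LaurentSeries ℚ) r * g) = (algebraMap ℚ Kb r) • coeffEmb Kb g := by
  rw [map_mul, smul_eq_algebraMap_mul, coeffEmb, coeffMap_algebraMap'']

section Normalise

variable {ℓ : ℕ} [Fact ℓ.Prime] {B₀ : AddSubgroup (LaurentSeries ℚ)}

/-- a series of `B₀` with a unit coefficient can be normalised. -/
theorem exists_of_isUnit
    (hsmul : ∀ r ∈ GaloisRep.ratLocalizedAt ℓ, ∀ f ∈ B₀,
      algebraMap ℚ (LaurentSeries ℚ) r * f ∈ B₀)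
    {f : LaurentSeries ℚ} (hf : f ∈ B₀) {k : ℤ} {x : S28.Zl ℓ} (hx : IsUnit x)
    (hxk : f.coeff k = (x : ℚ)) :
    ∃ r : ℚ, r ≠ 0 ∧ ∃ g ∈ B₀, ∃ k : ℤ, f = algebraMap ℚ (LaurentSeries ℚ) r * g ∧
      g.coeff k = 1 := by
  obtain ⟨u, rfl⟩ := hx
  have h1 : ((u : S28.Zl ℓ) : ℚ) * (((u⁻¹ : (S28.Zl ℓ)ˣ) : S28.Zl ℓ) : ℚ) = 1 := by
    have h := congrArg (Subtype.val) (Units.mul_inv u)
    exact h
  have h0 : ((u : S28.Zl ℓ) : ℚ) ≠ 0 := left_ne_zero_of_mul_eq_one h1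
  refine ⟨((u : S28.Zl ℓ) : ℚ), h0,
    algebraMap ℚ (LaurentSeries ℚ) (((u⁻¹ : (S28.Zl ℓ)ˣ) : S28.Zl ℓ) : ℚ) * f,
    hsmul _ (Subtype.property _) f hf, k, ?_, ?_⟩
  · rw [← mul_assoc, ← map_mul, h1, map_one, one_mul]
  · rw [coeff_algebraMap_mul, hxk, mul_comm, h1]

theorem exists_normalised_aux
    (hsmul : ∀ r ∈ GaloisRep.ratLocalizedAt ℓ, ∀ f ∈ B₀,
      algebraMap ℚ (LaurentSeries ℚ) r * f ∈ B₀)
    (h1 : ∀ f ∈ B₀, S28.IsInt ℓ f)
    (h2 : ∀ f ∈ B₀, S28.IsDivl ℓ f → ∃ g ∈ B₀, f = (ℓ : LaurentSeries ℚ) * g) (n : ℕ) :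
    ∀ f ∈ B₀, ∀ (k₀ : ℤ) (u : (S28.Zl ℓ)ˣ), f.coeff k₀ = ((u : S28.Zl ℓ) : ℚ) * (ℓ : ℚ) ^ n →
    ∃ r : ℚ, r ≠ 0 ∧ ∃ g ∈ B₀, ∃ k : ℤ, f = algebraMap ℚ (LaurentSeries ℚ) r * g ∧
      g.coeff k = 1 := by
  have hℓ : ℓ.Prime := Fact.out
  have hℓ0 : (ℓ : ℚ) ≠ 0 := Nat.cast_ne_zero.mpr hℓ.ne_zero
  induction n with
  | zero =>
    intro f hf k₀ u hu
    rw [pow_zero, mul_one] at hu
    exact exists_of_isUnit hsmul hf u.isUnit hu
  | succ n ih =>
    intro f hf k₀ u hu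
    by_cases hdiv : S28.IsDivl ℓ f
    · obtain ⟨g, hg, rfl⟩ := h2 f hf hdiv
      have hcast : (ℓ : LaurentSeries ℚ) = algebraMap ℚ (LaurentSeries ℚ) (ℓ : ℚ) := by
        rw [map_natCast]
      have hg0 : g.coeff k₀ = ((u : S28.Zl ℓ) : ℚ) * (ℓ : ℚ) ^ n := by
        rw [hcast, coeff_algebraMap_mul, pow_succ] at hu
        apply mul_left_cancel₀ hℓ0
        rw [hu]; ring
      obtain ⟨r, hr, g', hg', k, hgg', hk⟩ := ih g hg k₀ u hg0
      refine ⟨(ℓ : ℚ) * r, mul_ne_zero hℓ0 hr, g', hg', k, ?_, hk⟩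
      rw [hcast, map_mul, mul_assoc, ← hgg']
    · unfold S28.IsDivl at hdiv
      push Not at hdiv
      obtain ⟨k, hk⟩ := hdiv
      set x : S28.Zl ℓ := ⟨f.coeff k, h1 f hf k⟩ with hx
      have hunit : IsUnit x := by
        rw [S28.ZlRing.isUnit_iff]
        intro h0
        obtain ⟨y, hy⟩ := (S28.ZlRing.red_eq_zero_iff ℓ x).mp h0
        apply hk (y : ℚ) y.2
        have := congrArg Subtype.val hy
        simpa [hx] using this
      exact exists_of_isUnit hsmul hf hunit rfl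

/-- every nonzero series of `B₀` is a nonzero rational multiple of a series of `B₀` having a
coefficient equal to `1`. -/
theorem exists_normalised
    (hsmul : ∀ r ∈ GaloisRep.ratLocalizedAt ℓ, ∀ f ∈ B₀,
      algebraMap ℚ (LaurentSeries ℚ) r * f ∈ B₀)
    (h1 : ∀ f ∈ B₀, S28.IsInt ℓ f)
    (h2 : ∀ f ∈ B₀, S28.IsDivl ℓ f → ∃ g ∈ B₀, f = (ℓ : LaurentSeries ℚ) * g)
    {f : LaurentSeries ℚ} (hf : f ∈ B₀) (hf0 : f ≠ 0) :
    ∃ r : ℚ, r ≠ 0 ∧ ∃ g ∈ B₀, ∃ k : ℤ, f = algebraMap ℚ (LaurentSeries ℚ) r * g ∧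
      g.coeff k = 1 := by
  obtain ⟨k₀, hk₀⟩ : ∃ k₀ : ℤ, f.coeff k₀ ≠ 0 := by
    by_contra hcon
    push Not at hcon
    exact hf0 (HahnSeries.ext (funext hcon))
  set x : S28.Zl ℓ := ⟨f.coeff k₀, h1 f hf k₀⟩ with hx
  have hx0 : x ≠ 0 := fun h => hk₀ (congrArg Subtype.val h)
  have := S28.ZlRing.isDiscreteValuationRing ℓ
  obtain ⟨n, u, hu⟩ := IsDiscreteValuationRing.eq_unit_mul_pow_irreducible hx0
    (S28.ZlRing.prime_natCast ℓ).irreducible
  refine exists_normalised_aux hsmul h1 h2 n f hf k₀ u ?_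
  have := congrArg Subtype.val hu
  simpa [hx] using this

end Normalise

end Reduced

open Reduced in
theorem Reduced.exists_reduced_aux (A : ValuationSubring Kb) (ℓ : ℕ) [Fact ℓ.Prime]
    (B₀ : AddSubgroup (LaurentSeries ℚ))
    (hsmul : ∀ r ∈ GaloisRep.ratLocalizedAt ℓ, ∀ f ∈ B₀,
      algebraMap ℚ (LaurentSeries ℚ) r * f ∈ B₀)
    (h1 : ∀ f ∈ B₀, S28.IsInt ℓ f)
    (h2 : ∀ f ∈ B₀, S28.IsDivl ℓ f → ∃ g ∈ B₀, f = (ℓ : LaurentSeries ℚ) * g)
    (S : AddSubgroup (LaurentSeries Kb))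
    (hS1 : ∀ f ∈ B₀, coeffEmb Kb f ∈ S)
    (hS2 : ∀ a ∈ A, ∀ y ∈ S, algebraMap Kb (LaurentSeries Kb) a * y ∈ S)
    (hS3 : ∀ y ∈ S, ∀ k : ℤ, y.coeff k ∈ A) (n : ℕ) :
    ∀ (c : Fin n → Kb) (f : Fin n → LaurentSeries ℚ), (∀ i, f i ∈ B₀) →
      ∑ i, c i • coeffEmb Kb (f i) ≠ 0 →
    ∃ c₀ : Kb, c₀ ≠ 0 ∧ ∃ z' ∈ S,
      ∑ i, c i • coeffEmb Kb (f i) = algebraMap Kb (LaurentSeries Kb) c₀ * z' ∧
      ∃ k : ℤ, z'.coeff k ∉ A.nonunits := by
  induction n with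
  | zero =>
    intro c f _ hz
    exact absurd (by simp) hz
  | succ n ih =>
    intro c f hf hz
    rw [Fin.sum_univ_succ] at hz ⊢
    by_cases hf0 : f 0 = 0
    · rw [hf0, map_zero, smul_zero, zero_add] at hz ⊢
      exact ih (fun i => c i.succ) (fun i => f i.succ) (fun i => hf i.succ) hz
    obtain ⟨r, hr, g, hg, k, hfg, hgk⟩ := exists_normalised hsmul h1 h2 (hf 0) hf0
    -- elimination
    set a : Fin n → ℚ := fun i => (f i.succ).coeff k with ha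
    set f' : Fin n → LaurentSeries ℚ :=
      fun i => f i.succ - algebraMap ℚ (LaurentSeries ℚ) (a i) * g with hf'
    have hf'B : ∀ i, f' i ∈ B₀ := fun i =>
      sub_mem (hf i.succ) (hsmul _ (h1 _ (hf i.succ) k) g hg)
    have hf'k : ∀ i, (f' i).coeff k = 0 := by
      intro i
      simp only [hf', HahnSeries.coeff_sub, coeff_algebraMap_mul, hgk, mul_one, ha, sub_self]
    set β : LaurentSeries Kb := coeffEmb Kb g with hβ
    have hβS : β ∈ S := hS1 g hg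
    have hβk : β.coeff k = 1 := by rw [hβ, coeffEmb_coeff, hgk, map_one]
    set c₁ : Kb := c 0 * algebraMap ℚ Kb r + ∑ i, c i.succ * algebraMap ℚ Kb (a i) with hc₁
    set z₂ : LaurentSeries Kb := ∑ i, c i.succ • coeffEmb Kb (f' i) with hz₂
    have hz₂k : z₂.coeff k = 0 := by
      rw [hz₂, HahnSeries.coeff_sum]
      apply Finset.sum_eq_zero
      intro i _
      rw [HahnSeries.coeff_smul, coeffEmb_coeff, hf'k, map_zero, smul_zero]
    have hdecomp : c 0 • coeffEmb Kb (f 0) + ∑ i : Fin n, c i.succ • coeffEmb Kb (f i.succ)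
        = c₁ • β + z₂ := by
      have e1 : c 0 • coeffEmb Kb (f 0) = (c 0 * algebraMap ℚ Kb r) • β := by
        rw [hfg, coeffEmb_algebraMap_mul, smul_smul]
      have e2 : ∀ i : Fin n, c i.succ • coeffEmb Kb (f i.succ)
          = (c i.succ * algebraMap ℚ Kb (a i)) • β + c i.succ • coeffEmb Kb (f' i) := by
        intro i
        have : f i.succ = algebraMap ℚ (LaurentSeries ℚ) (a i) * g + f' i := by
          simp only [hf']; ring
        conv_lhs => rw [this]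
        rw [map_add, coeffEmb_algebraMap_mul, smul_add, smul_smul]
      rw [e1, Finset.sum_congr rfl (fun i _ => e2 i), Finset.sum_add_distrib, ← Finset.sum_smul,
        ← add_assoc, ← add_smul]
    rw [hdecomp] at hz ⊢
    have hone : (1 : Kb) ∉ A.nonunits := by
      rw [A.mem_nonunits_iff, map_one]
      exact lt_irrefl _
    by_cases hz₂0 : z₂ = 0
    · rw [hz₂0, add_zero] at hz ⊢
      have hc₁0 : c₁ ≠ 0 := by
        intro h0
        exact hz (by rw [h0, zero_smul])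
      exact ⟨c₁, hc₁0, β, hβS, smul_eq_algebraMap_mul _ _, k, by rw [hβk]; exact hone⟩
    obtain ⟨c₂, hc₂, z₂', hz₂'S, hz₂', k', hk'⟩ :=
      ih (fun i => c i.succ) f' hf'B hz₂0
    rw [← hz₂] at hz₂'
    have hz₂'k : z₂'.coeff k = 0 := by
      have := hz₂k
      rw [hz₂', coeff_algebraMap_mul] at this
      exact (mul_eq_zero.mp this).resolve_left hc₂
    by_cases hc₁0 : c₁ = 0
    · rw [hc₁0, zero_smul, zero_add]
      exact ⟨c₂, hc₂, z₂', hz₂'S, hz₂', k', hk'⟩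
    by_cases hq : c₂ / c₁ ∈ A
    · refine ⟨c₁, hc₁0, β + algebraMap Kb (LaurentSeries Kb) (c₂ / c₁) * z₂',
        add_mem hβS (hS2 _ hq _ hz₂'S), ?_, k, ?_⟩
      · rw [mul_add, ← mul_assoc, ← map_mul, mul_div_cancel₀ _ hc₁0, ← hz₂',
          smul_eq_algebraMap_mul]
      · rw [HahnSeries.coeff_add, coeff_algebraMap_mul, hz₂'k, mul_zero, add_zero, hβk]
        exact hone
    · have hq' : A.valuation (c₁ / c₂) < 1 := by
        rw [← A.valuation_le_one_iff, not_le] at hq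
        have h3 : c₁ / c₂ = (c₂ / c₁)⁻¹ := by rw [inv_div]
        rw [h3, map_inv₀]
        exact inv_lt_one_of_one_lt₀ hq
      have hqA : c₁ / c₂ ∈ A := (A.valuation_le_one_iff _).mp hq'.le
      refine ⟨c₂, hc₂, algebraMap Kb (LaurentSeries Kb) (c₁ / c₂) * β + z₂',
        add_mem (hS2 _ hqA _ hβS) hz₂'S, ?_, k', ?_⟩
      · rw [mul_add, ← mul_assoc, ← map_mul, mul_div_cancel₀ _ hc₂, ← hz₂',
          smul_eq_algebraMap_mul]
      · rw [HahnSeries.coeff_add, coeff_algebraMap_mul]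
        intro hcon
        apply hk'
        rw [A.mem_nonunits_iff] at hcon ⊢
        have h4 : A.valuation (c₁ / c₂ * β.coeff k') < 1 := by
          rw [map_mul]
          exact mul_lt_one_of_nonneg_of_lt_one_left zero_le hq'
            ((A.valuation_le_one_iff _).mpr (hS3 β hβS k'))
        have h5 : z₂'.coeff k' = (c₁ / c₂ * β.coeff k' + z₂'.coeff k') - c₁ / c₂ * β.coeff k' := by
          ring
        rw [h5]
        exact Valuation.map_sub_lt _ hcon h4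

/-- Gaussian elimination: every nonzero element of the `ℚ̄`-span of `B₀` is a constant times an
element of the "`A`-span" `S` of `B₀` having a coefficient which is a unit. -/
theorem exists_reduced (A : ValuationSubring Kb) (ℓ : ℕ) [Fact ℓ.Prime]
    (B₀ : AddSubgroup (LaurentSeries ℚ))
    (hsmul : ∀ r ∈ GaloisRep.ratLocalizedAt ℓ, ∀ f ∈ B₀,
      algebraMap ℚ (LaurentSeries ℚ) r * f ∈ B₀)
    (h1 : ∀ f ∈ B₀, S28.IsInt ℓ f)
    (h2 : ∀ f ∈ B₀, S28.IsDivl ℓ f → ∃ g ∈ B₀, f = (ℓ : LaurentSeries ℚ) * g)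
    (S : AddSubgroup (LaurentSeries Kb))
    (hS1 : ∀ f ∈ B₀, coeffEmb Kb f ∈ S)
    (hS2 : ∀ a ∈ A, ∀ y ∈ S, algebraMap Kb (LaurentSeries Kb) a * y ∈ S)
    (hS3 : ∀ y ∈ S, ∀ k : ℤ, y.coeff k ∈ A)
    {z : LaurentSeries Kb}
    (hz : z ∈ Submodule.span Kb (⇑(coeffEmb Kb) '' (B₀ : Set (LaurentSeries ℚ)))) (hz0 : z ≠ 0) :
    ∃ c : Kb, c ≠ 0 ∧ ∃ z' ∈ S, z = algebraMap Kb (LaurentSeries Kb) c * z' ∧
      ∃ k : ℤ, z'.coeff k ∉ A.nonunits := by
  obtain ⟨n, c, g, rfl⟩ := Submodule.mem_span_set'.mp hz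
  choose f hf hfg using fun i => (g i).2
  have hsum : ∑ i, c i • ((g i : LaurentSeries Kb)) = ∑ i, c i • coeffEmb Kb (f i) :=
    Finset.sum_congr rfl (fun i _ => by rw [hfg])
  rw [hsum] at hz0 ⊢
  exact Reduced.exists_reduced_aux A ℓ B₀ hsmul h1 h2 S hS1 hS2 hS3 n c f hf hz0

end Fermat.Agent.S37.QA

end
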