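import Mathlib
import Fermat.Agent.S37.QA.Defs

/-!
# S37-QA7: the unit-coefficient step of the `q`-expansion principle over `A` (owner helper99)

If `b = c z'` is integral over `A[T]`, where `T` and `z'` have `A`-integral expansions and `z'`
has a unit coefficient, then `c ∈ A`.
-/

set_option autoImplicit false

noncomputable section

namespace Fermat.Agent.S37.QA

open ModularCurve Polynomial

/-- lifting a series with coefficients in `A` (private copy). -/
theorem Unit.exists_lift (A : ValuationSubring Kb) {z : LaurentSeries Kb}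
    (h : ∀ k : ℤ, z.coeff k ∈ A) : ∃ y : LaurentSeries A, coeffMap A.subtype y = z := by
  refine ⟨⟨fun k => ⟨z.coeff k, h k⟩, ?_⟩, ?_⟩
  · refine z.isPWO_support.mono ?_
    intro k hk
    simp only [Function.mem_support, ne_eq] at hk ⊢
    intro h0
    exact hk (Subtype.ext h0)
  · ext k
    rfl

theorem Unit.coeffMap_injective {R S : Type*} [CommRing R] [CommRing S] (f : R →+* S)
    (hf : Function.Injective f) : Function.Injective (coeffMap f) := by
  intro x y h
  ext k
  apply hf
  have := congrArg (fun x => HahnSeries.coeff x k) h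
  simpa using this

/-- scaling the roots of a monic polynomial by an element killed by `g` gives `X ^ n` after
applying `g`. -/
theorem Unit.map_scaleRoots {B S : Type*} [CommRing B] [CommRing S] (g : B →+* S) {a : B}
    (ha : g a = 0) {P : B[X]} (hP : P.Monic) :
    (P.scaleRoots a).map g = X ^ P.natDegree := by
  ext i
  rw [coeff_map, coeff_scaleRoots, coeff_X_pow, map_mul, map_pow, ha]
  rcases lt_trichotomy i P.natDegree with h | h | h
  · rw [zero_pow (Nat.sub_ne_zero_of_lt h), mul_zero, if_neg h.ne]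
  · subst h
    rw [Nat.sub_self, pow_zero, mul_one, if_pos rfl, hP.coeff_natDegree, map_one]
  · rw [coeff_eq_zero_of_natDegree_lt h, map_zero, zero_mul, if_neg h.ne']

theorem Unit.pow_eq_zero {B S : Type*} [CommRing B] [CommRing S] (g : B →+* S) {a : B}
    (ha : g a = 0) {P : B[X]} (hP : P.Monic) {w : S} (hw : (P.scaleRoots a).eval₂ g w = 0) :
    w ^ P.natDegree = 0 := by
  rw [← eval_map, Unit.map_scaleRoots g ha hP, eval_pow, eval_X] at hw
  exact hw

/-- evaluation `A[X] → A((q))`. -/
def Unit.evA (A : ValuationSubring Kb) (TA : LaurentSeries A) : (A : Type)[X] →+* LaurentSeries A :=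
  Polynomial.eval₂RingHom HahnSeries.C TA

theorem Unit.coeffMap_comp_evA (A : ValuationSubring Kb) (TA : LaurentSeries A) :
    (coeffMap A.subtype).comp (Unit.evA A TA) = ev A.subtype (coeffMap A.subtype TA) := by
  refine Polynomial.ringHom_ext (fun r => ?_) ?_
  · simp [Unit.evA, HahnSeries.C_apply, algebraMap_laurentSeries_eq_single]
  · simp [Unit.evA]

/-- the key step of QA.1: if `b = c z'` is integral over `A[t]`, where `t` and `z'` have
`A`-integral expansions and `z'` has a unit coefficient, then `c ∈ A`. -/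
theorem mem_of_integ_mul (A : ValuationSubring Kb) {T z' : LaurentSeries Kb} {c : Kb}
    (hT : ∀ k : ℤ, T.coeff k ∈ A) (hz' : ∀ k : ℤ, z'.coeff k ∈ A)
    (hu : ∃ k : ℤ, z'.coeff k ∉ A.nonunits)
    (hint : Integ A.subtype T (algebraMap Kb (LaurentSeries Kb) c * z')) : c ∈ A := by
  by_contra hc
  have hc0 : c ≠ 0 := fun h => hc (h ▸ zero_mem A)
  have haA : c⁻¹ ∈ A := (A.mem_or_inv_mem c).resolve_left hc
  -- `a = c⁻¹` is a non-unit of `A`
  have hres : IsLocalRing.residue A ⟨c⁻¹, haA⟩ = 0 := by
    rw [IsLocalRing.residue_eq_zero_iff, IsLocalRing.mem_maximalIdeal, mem_nonunits_iff]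
    intro hunit
    obtain ⟨u, hu'⟩ := hunit
    apply hc
    have h1 : ((u⁻¹ : (A : Type)ˣ) : A) * ⟨c⁻¹, haA⟩ = 1 := by
      rw [← hu']; exact u.inv_mul
    have h2 : (((u⁻¹ : (A : Type)ˣ) : A) : Kb) * c⁻¹ = 1 := congrArg Subtype.val h1
    have h3 : (((u⁻¹ : (A : Type)ˣ) : A) : Kb) = c := by
      field_simp at h2
      exact h2
    rw [← h3]
    exact Subtype.property _
  obtain ⟨TA, rfl⟩ := Unit.exists_lift A hT
  obtain ⟨y, rfl⟩ := Unit.exists_lift A hz'
  obtain ⟨P, hP, hP0⟩ := hint
  set s : (A : Type)[X] := C ⟨c⁻¹, haA⟩ with hs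
  -- `z'` is a root of the scaled polynomial
  have h1 : (P.scaleRoots s).eval₂ (ev A.subtype (coeffMap A.subtype TA))
      (coeffMap A.subtype y) = 0 := by
    have := Polynomial.scaleRoots_eval₂_mul (p := P) (ev A.subtype (coeffMap A.subtype TA))
      (algebraMap Kb (LaurentSeries Kb) c * coeffMap A.subtype y) s
    rw [hP0, mul_zero] at this
    have h2 : ev A.subtype (coeffMap A.subtype TA) s *
        (algebraMap Kb (LaurentSeries Kb) c * coeffMap A.subtype y) = coeffMap A.subtype y := by
      rw [hs, ev_C, ← mul_assoc, ← map_mul]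
      have : A.subtype ⟨c⁻¹, haA⟩ * c = 1 := inv_mul_cancel₀ hc0
      rw [this, map_one, one_mul]
    rwa [h2] at this
  -- descend to `A((q))`
  have h2 : (P.scaleRoots s).eval₂ (Unit.evA A TA) y = 0 := by
    apply Unit.coeffMap_injective A.subtype Subtype.val_injective
    rw [map_zero, Polynomial.hom_eval₂, Unit.coeffMap_comp_evA]
    exact h1
  -- reduce modulo the maximal ideal
  have h3 : (P.scaleRoots s).eval₂ ((coeffMap (IsLocalRing.residue A)).comp (Unit.evA A TA))
      (coeffMap (IsLocalRing.residue A) y) = 0 := by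
    rw [← Polynomial.hom_eval₂, h2, map_zero]
  have h4 : ((coeffMap (IsLocalRing.residue A)).comp (Unit.evA A TA)) s = 0 := by
    simp [hs, Unit.evA, HahnSeries.C_apply, hres]
  have h5 := Unit.pow_eq_zero _ h4 hP h3
  have h6 : coeffMap (IsLocalRing.residue A) y = 0 := eq_zero_of_pow_eq_zero h5
  obtain ⟨k, hk⟩ := hu
  apply hk
  have h7 : IsLocalRing.residue A (y.coeff k) = 0 := by
    have := congrArg (fun x => HahnSeries.coeff x k) h6
    simpa using this
  rw [IsLocalRing.residue_eq_zero_iff] at h7
  have h8 : (coeffMap A.subtype y).coeff k = ((y.coeff k : A) : Kb) := rfl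
  rw [h8, A.coe_mem_nonunits_iff]
  exact h7

end Fermat.Agent.S37.QA

end
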