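import Fermat.Agent.S37.QA.Span
import Fermat.Agent.S37.QA.Descent
import Fermat.Agent.S37.QA.Proj
import Fermat.Agent.S37.QA.Denom
import Fermat.Agent.S37.QA.Reduced
import Fermat.Agent.S37.QA.Closure
import Fermat.Agent.S37.QA.Unit

/-!
# S37-QA: the `q`-expansion principle over `A`, in terms of Laurent series (owner helper133)
-/

set_option autoImplicit false

noncomputable section

namespace Fermat.Agent.S37.QA

open ModularCurve Polynomial

variable {ℓ : ℕ} [Fact ℓ.Prime] {A : ValuationSubring Kb}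
  {F₀ : IntermediateField ℚ (LaurentSeries ℚ)} {t : LaurentSeries ℚ}

/-- STRUCTURE: an element of `ℚ̄ F₀` integral over `ℚ̄[t]` is in the `ℚ̄`-span of `B0`. -/
theorem mem_span_B0 (ℓ : ℕ) {z : LaurentSeries Kb} (hz : z ∈ laurentBaseChange Kb F₀)
    (hint : Integ (RingHom.id Kb) (coeffEmb Kb t) z) :
    z ∈ Submodule.span Kb (⇑(coeffEmb Kb) '' (B0 ℓ F₀ t : Set (LaurentSeries ℚ))) := by
  have h1 := mem_span_of_mem_baseChange F₀ hz
  have h2 := galois_descent (fieldSubmodule F₀) (intK (coeffEmb Kb t)) (by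
    intro σ z hz
    have h3 : Integ (RingHom.id Kb) (coeffMap (σ : Kb →+* Kb) (coeffEmb Kb t))
        (coeffMap (σ : Kb →+* Kb) z) :=
      Integ.map (i := RingHom.id Kb) (RingHom.id Kb) (σ : Kb →+* Kb) (σ : Kb →+* Kb) (by simp) hz
    have h4 : coeffMap (σ : Kb →+* Kb) (coeffEmb Kb t) = coeffEmb Kb t := by
      rw [coeffEmb, coeffMap_coeffMap]
      exact coeffMap_congr (Subsingleton.elim _ _) t
    rw [h4] at h3
    exact h3) h1 hint
  refine Submodule.span_le.mpr ?_ h2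
  rintro _ ⟨f, ⟨hf, hfint⟩, rfl⟩
  obtain ⟨d, hd, hdint⟩ := exists_natCast_mul_integ ℓ t f (integ_of_integ_coeffEmb t f hfint)
  have hmem : (d : LaurentSeries ℚ) * f ∈ B0 ℓ F₀ t := ⟨mul_mem (natCast_mem _ d) hf, hdint⟩
  have hd' : (d : Kb) ≠ 0 := Nat.cast_ne_zero.mpr hd
  have : coeffEmb Kb f = (d : Kb)⁻¹ • coeffEmb Kb ((d : LaurentSeries ℚ) * f) := by
    rw [map_mul, map_natCast, smul_eq_algebraMap_mul, ← mul_assoc, ← map_natCast
      (algebraMap Kb (LaurentSeries Kb)) d, ← map_mul, inv_mul_cancel₀ hd', map_one, one_mul]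
  rw [SetLike.mem_coe, this]
  exact Submodule.smul_mem _ _ (Submodule.subset_span ⟨_, hmem, rfl⟩)

/-- every nonzero element of `ℚ̄ F₀` integral over `ℚ̄[t]` is a constant times an element integral
over `A[t]`, with `A`-integral expansion having a unit coefficient. -/
theorem main2 (hA : A.LiesOverPrime ℓ) (h : QEP' ℓ F₀ t) {z : LaurentSeries Kb}
    (hz : z ∈ laurentBaseChange Kb F₀) (hz0 : z ≠ 0)
    (hint : Integ (RingHom.id Kb) (coeffEmb Kb t) z) :
    ∃ c : Kb, c ≠ 0 ∧ ∃ z' ∈ SA A F₀ t, z = algebraMap Kb (LaurentSeries Kb) c * z' ∧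
      ∃ k : ℤ, z'.coeff k ∉ A.nonunits :=
  exists_reduced A ℓ (B0 ℓ F₀ t) (fun _ hr _ hf => smul_mem_B0 ℓ F₀ t hr hf) h.int h.div
    (SA A F₀ t) (fun _ hf => coeffEmb_mem_SA ℓ A F₀ t hA h hf)
    (fun _ ha _ hy => smul_mem_SA A F₀ t ha hy) (fun _ hy => hy.2.2) (mem_span_B0 ℓ hz hint) hz0

/-- the elements of `ℚ̄ F₀` integral over `A[t]` have `A`-integral expansions. -/
theorem main1 (hA : A.LiesOverPrime ℓ) (ht : t ∈ F₀) (h : QEP' ℓ F₀ t) {z : LaurentSeries Kb}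
    (hz : z ∈ laurentBaseChange Kb F₀) (hint : Integ A.subtype (coeffEmb Kb t) z) (k : ℤ) :
    z.coeff k ∈ A := by
  by_cases hz0 : z = 0
  · rw [hz0, HahnSeries.coeff_zero]; exact zero_mem _
  have hintK : Integ (RingHom.id Kb) (coeffEmb Kb t) z :=
    Integ.of_comp (i' := RingHom.id Kb) A.subtype (by simpa using hint)
  obtain ⟨c, -, z', hz', rfl, hu⟩ := main2 hA h hz hz0 hintK
  have htB : t ∈ B0 ℓ F₀ t := ⟨ht, integ_self _ _⟩
  have hc : c ∈ A := mem_of_integ_mul A (coeffEmb_mem_SA ℓ A F₀ t hA h htB).2.2 hz'.2.2 hu hint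
  exact (smul_mem_SA A F₀ t hc hz').2.2 k

end Fermat.Agent.S37.QA

end
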